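import Fermat.Agent.F4.UC.Defs

/-!
# F4 / Hull / Basic : quotients and `p`-torsion of `ℤ[G]`-modules as representations

* `quotRep A R hR` : the quotient of `A : Rep ℤ G` by a `G`-stable subgroup `R`, with
  `quotMk : A →+ quotRep A R hR`;
* `torsRep p A` : the `p`-torsion of `A` as a representation over `ZMod p`, with
  `torsIncl : torsRep p A →+ A`;
* `torsMap` : the map induced on `p`-torsion by an equivariant additive map.
-/

set_option autoImplicit false

open CategoryTheory

namespace Fermat.Agent.F4

variable {G : Type} [Group G]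

/-! ### Quotients -/

section Quot

variable (A : Rep.{0} ℤ G) (R : AddSubgroup A) (hR : ∀ (g : G) (x : A), x ∈ R → A.ρ g x ∈ R)

/-- The action of `g` on `A ⧸ R`. -/
def quotAct (g : G) : (A ⧸ R) →+ (A ⧸ R) :=
  QuotientAddGroup.map R R (A.ρ g).toAddMonoidHom fun x hx => hR g x hx

@[simp] lemma quotAct_mk (g : G) (x : A) :
    quotAct A R hR g (QuotientAddGroup.mk x) = QuotientAddGroup.mk (A.ρ g x) := rfl

/-- The representation of `G` on `A ⧸ R`. -/
def quotRepr : Representation ℤ G (A ⧸ R) where
  toFun g := (quotAct A R hR g).toIntLinearMap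
  map_one' := by
    refine LinearMap.ext fun x => ?_
    induction x using QuotientAddGroup.induction_on with
    | H x => simp
  map_mul' g h := by
    refine LinearMap.ext fun x => ?_
    induction x using QuotientAddGroup.induction_on with
    | H x => simp

/-- The quotient of `A` by a `G`-stable subgroup, as a representation. -/
abbrev quotRep : Rep.{0} ℤ G := Rep.of (quotRepr A R hR)

/-- The quotient map. -/
def quotMk : A →+ quotRep A R hR := QuotientAddGroup.mk' R

lemma quotMk_surjective : Function.Surjective (quotMk A R hR) := QuotientAddGroup.mk'_surjective R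

lemma quotMk_eq_zero_iff (x : A) : quotMk A R hR x = 0 ↔ x ∈ R :=
  QuotientAddGroup.eq_zero_iff x

lemma quotMk_comm (g : G) (x : A) : quotMk A R hR (A.ρ g x) = (quotRep A R hR).ρ g (quotMk A R hR x) :=
  rfl

end Quot

/-! ### `p`-torsion -/

section Tors

variable (p : ℕ) (A : Rep.{0} ℤ G)

/-- The `p`-torsion subgroup. -/
def torsSub : AddSubgroup A where
  carrier := {x | (p : ℤ) • x = 0}
  zero_mem' := smul_zero _
  add_mem' {x y} hx hy := by
    show (p : ℤ) • (x + y) = 0
    rw [smul_add, show (p : ℤ) • x = 0 from hx, show (p : ℤ) • y = 0 from hy, add_zero]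
  neg_mem' {x} hx := by
    show (p : ℤ) • (-x) = 0
    rw [smul_neg, show (p : ℤ) • x = 0 from hx, neg_zero]

lemma mem_torsSub (x : A) : x ∈ torsSub p A ↔ (p : ℤ) • x = 0 := Iff.rfl

lemma torsSub_nsmul (x : ↥(torsSub p A)) : p • x = 0 := by
  refine Subtype.ext ?_
  have h : (p : ℤ) • (x : A) = 0 := x.2
  rw [natCast_zsmul] at h
  simpa using h

/-- The `ZMod p`-module structure on the `p`-torsion. -/
instance torsModule : Module (ZMod p) ↥(torsSub p A) :=
  AddCommGroup.zmodModule (torsSub_nsmul p A)

/-- The action of `g` on the `p`-torsion. -/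
def torsAct (g : G) : ↥(torsSub p A) →+ ↥(torsSub p A) :=
  ((A.ρ g).toAddMonoidHom.comp (torsSub p A).subtype).codRestrict (torsSub p A) fun x => by
    show (p : ℤ) • A.ρ g (x : A) = 0
    rw [← map_zsmul, show (p : ℤ) • (x : A) = 0 from x.2, map_zero]

@[simp] lemma torsAct_coe (g : G) (x : ↥(torsSub p A)) :
    ((torsAct p A g x : ↥(torsSub p A)) : A) = A.ρ g (x : A) := rfl

/-- The representation of `G` on the `p`-torsion of `A`, over `ZMod p`. -/
def torsRepr : Representation (ZMod p) G ↥(torsSub p A) where
  toFun g := (torsAct p A g).toZModLinearMap p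
  map_one' := by
    refine LinearMap.ext fun x => Subtype.ext ?_
    simp
  map_mul' g h := by
    refine LinearMap.ext fun x => Subtype.ext ?_
    simp

/-- The `p`-torsion of `A` as a representation over `ZMod p`. -/
abbrev torsRep : Rep.{0} (ZMod p) G := Rep.of (torsRepr p A)

/-- The inclusion of the `p`-torsion. -/
def torsIncl : torsRep p A →+ A := (torsSub p A).subtype

lemma torsIncl_injective : Function.Injective (torsIncl p A) := Subtype.val_injective

lemma torsIncl_comm (g : G) (x : torsRep p A) :
    torsIncl p A ((torsRep p A).ρ g x) = A.ρ g (torsIncl p A x) := rfl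

lemma torsIncl_range (x : A) (hx : (p : ℤ) • x = 0) : ∃ t : torsRep p A, torsIncl p A t = x :=
  ⟨⟨x, hx⟩, rfl⟩

lemma p_smul_torsIncl (t : torsRep p A) : (p : ℤ) • torsIncl p A t = 0 := t.2

variable {A} {B : Rep.{0} ℤ G}

/-- The map induced on `p`-torsion by an additive map. -/
def torsMap (f : A →+ B) : torsRep p A →ₗ[ZMod p] torsRep p B :=
  ((f.comp (torsSub p A).subtype).codRestrict (torsSub p B) fun x => by
    show (p : ℤ) • f (x : A) = 0
    rw [← map_zsmul, show (p : ℤ) • (x : A) = 0 from x.2, map_zero]).toZModLinearMap p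

@[simp] lemma torsIncl_torsMap (f : A →+ B) (t : torsRep p A) :
    torsIncl p B (torsMap p f t) = f (torsIncl p A t) := rfl

lemma torsMap_comm (f : A →+ B) (hf : ∀ (g : G) (x : A), f (A.ρ g x) = B.ρ g (f x)) (g : G)
    (t : torsRep p A) : torsMap p f ((torsRep p A).ρ g t) = (torsRep p B).ρ g (torsMap p f t) := by
  apply torsIncl_injective
  rw [torsIncl_torsMap, torsIncl_comm, torsIncl_comm, torsIncl_torsMap, hf]

/-- An additive map from a `ZMod p`-module to `A` lands in the `p`-torsion. -/
def torsLift (M : Type) [AddCommGroup M] [Module (ZMod p) M] (A : Rep.{0} ℤ G) (ψ : M →+ A) :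
    M →ₗ[ZMod p] torsRep p A :=
  (ψ.codRestrict (torsSub p A) fun m => by
    show (p : ℤ) • ψ m = 0
    rw [← map_zsmul, UC.p_smul_eq_zero, map_zero]).toZModLinearMap p

@[simp] lemma torsIncl_torsLift (M : Type) [AddCommGroup M] [Module (ZMod p) M]
    (A : Rep.{0} ℤ G) (ψ : M →+ A) (m : M) : torsIncl p A (torsLift p M A ψ m) = ψ m := rfl

end Tors

end Fermat.Agent.F4
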