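import Fermat.Agent.F4.Hull.Basic

/-!
# F4 / Hull / Hull : the divisible hull of a `ℤ[G]`-module and the complex `𝔽_p ⊗ᴸ C`

For every `ℤ[G]`-module `C`:
* `hullI C = ℚ[C] / ker(ℤ[C] → C)` : a divisible `ℤ[G]`-module containing `C` (`hullι`), smooth if
  `C` is (`hullI_smooth`);
* `hullQ C = hullI C / C`;
* `hullK p C = [hullI C [p] → hullQ C [p]]` : the 2-term complex of `𝔽_p[G]`-modules computing
  `Ext^r(𝔽_p, C)`;
* `hullData p C : UCData p (hullK p C) C (hullI C) (hullQ C)` (input of the universal-coefficient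
  sequences of `F4/UC`);
* `hullEps` : the morphism `M[0] → hullK p C` attached to an equivariant map `M → C`, `M` an
  `𝔽_p[G]`-module (e.g. `μ_p → L^×`).
-/

set_option autoImplicit false

noncomputable section

open CategoryTheory

namespace Fermat.Agent.F4

variable {G : Type} [Group G]

/-! ### The free `ℚ`-module on `C` -/

section Free

variable (C : Rep.{0} ℤ G)

/-- The sum map `ℤ[C] → C`. -/
def hullSum : (C →₀ ℤ) →+ C := Finsupp.liftAddHom fun c => zmultiplesHom C c

@[simp] lemma hullSum_single (c : C) (n : ℤ) : hullSum C (Finsupp.single c n) = n • c := by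
  simp [hullSum]

/-- The inclusion `ℤ[C] → ℚ[C]`. -/
def hullCast : (C →₀ ℤ) →+ (C →₀ ℚ) := Finsupp.mapRange.addMonoidHom (Int.castAddHom ℚ)

@[simp] lemma hullCast_single (c : C) (n : ℤ) :
    hullCast C (Finsupp.single c n) = Finsupp.single c (n : ℚ) := by
  simp [hullCast]

lemma hullCast_injective : Function.Injective (hullCast C) := by
  intro f f' h
  ext c
  have := DFunLike.congr_fun h c
  simpa [hullCast] using this

/-- The action of `g` on `ℚ[C]`. -/
def hullFreeAct (g : G) : (C →₀ ℚ) →+ (C →₀ ℚ) := Finsupp.mapDomain.addMonoidHom (C.ρ g)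

@[simp] lemma hullFreeAct_single (g : G) (c : C) (a : ℚ) :
    hullFreeAct C g (Finsupp.single c a) = Finsupp.single (C.ρ g c) a := by
  simp [hullFreeAct]

/-- The representation of `G` on `ℚ[C]`. -/
def hullFreeRepr : Representation ℤ G (C →₀ ℚ) where
  toFun g := (hullFreeAct C g).toIntLinearMap
  map_one' := by
    refine LinearMap.ext fun f => ?_
    show Finsupp.mapDomain (C.ρ 1) f = f
    rw [map_one]
    exact Finsupp.mapDomain_id
  map_mul' g h := by
    refine LinearMap.ext fun f => ?_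
    show Finsupp.mapDomain (C.ρ (g * h)) f = Finsupp.mapDomain (C.ρ g) (Finsupp.mapDomain (C.ρ h) f)
    rw [map_mul, ← Finsupp.mapDomain_comp]
    rfl

/-- `ℚ[C]` as a representation. -/
abbrev hullFree : Rep.{0} ℤ G := Rep.of (hullFreeRepr C)

lemma hullFree_ρ_apply (g : G) (f : C →₀ ℚ) :
    (hullFree C).ρ g f = Finsupp.mapDomain (C.ρ g) f := rfl

/-- The relations: the image in `ℚ[C]` of the kernel of `ℤ[C] → C`. -/
def hullRel : AddSubgroup (hullFree C) := (hullSum C).ker.map (hullCast C)

lemma hullSum_mapDomain (g : G) (r : C →₀ ℤ) :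
    hullSum C (Finsupp.mapDomain (C.ρ g) r) = C.ρ g (hullSum C r) := by
  induction r using Finsupp.induction_linear with
  | zero => simp
  | add f f' hf hf' => rw [Finsupp.mapDomain_add, map_add, map_add, map_add, hf, hf']
  | single c n => rw [Finsupp.mapDomain_single, hullSum_single, hullSum_single, map_zsmul]

lemma hullCast_mapDomain (g : G) (r : C →₀ ℤ) :
    hullCast C (Finsupp.mapDomain (C.ρ g) r) = Finsupp.mapDomain (C.ρ g) (hullCast C r) := by
  induction r using Finsupp.induction_linear with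
  | zero => simp
  | add f f' hf hf' => rw [Finsupp.mapDomain_add, map_add, map_add, Finsupp.mapDomain_add, hf, hf']
  | single c n => rw [Finsupp.mapDomain_single, hullCast_single, hullCast_single,
      Finsupp.mapDomain_single]

lemma hullRel_stable (g : G) (x : hullFree C) (hx : x ∈ hullRel C) :
    (hullFree C).ρ g x ∈ hullRel C := by
  obtain ⟨r, hr, rfl⟩ := hx
  refine ⟨Finsupp.mapDomain (C.ρ g) r, ?_, ?_⟩
  · show hullSum C (Finsupp.mapDomain (C.ρ g) r) = 0
    rw [hullSum_mapDomain, show hullSum C r = 0 from hr, map_zero]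
  · rw [hullCast_mapDomain]
    rfl

end Free

/-! ### The hull -/

section Hull

variable (C : Rep.{0} ℤ G)

/-- The divisible hull `ℚ[C] / ker(ℤ[C] → C)` of `C`. -/
abbrev hullI : Rep.{0} ℤ G := quotRep (hullFree C) (hullRel C) (hullRel_stable C)

/-- The class of an element of `ℚ[C]` in the hull. -/
def hullMk : (C →₀ ℚ) →+ hullI C := quotMk (hullFree C) (hullRel C) (hullRel_stable C)

lemma hullMk_surjective : Function.Surjective (hullMk C) :=
  quotMk_surjective (hullFree C) (hullRel C) (hullRel_stable C)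

lemma hullMk_eq_zero_iff (f : C →₀ ℚ) : hullMk C f = 0 ↔ f ∈ hullRel C :=
  quotMk_eq_zero_iff (hullFree C) (hullRel C) (hullRel_stable C) f

lemma hullMk_comm (g : G) (f : C →₀ ℚ) :
    hullMk C (Finsupp.mapDomain (C.ρ g) f) = (hullI C).ρ g (hullMk C f) := rfl

/-- The inclusion of `C` in its hull. -/
def hullι : C →+ hullI C :=
  AddMonoidHom.mk' (fun c => hullMk C (Finsupp.single c 1)) (by
    intro a b
    rw [← sub_eq_zero, ← map_add, ← map_sub, hullMk_eq_zero_iff]
    refine ⟨Finsupp.single (a + b) 1 - (Finsupp.single a 1 + Finsupp.single b 1), ?_, ?_⟩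
    · show hullSum C _ = 0
      simp
    · simp)

lemma hullι_apply (c : C) : hullι C c = hullMk C (Finsupp.single c 1) := rfl

lemma hullι_injective : Function.Injective (hullι C) := by
  rw [injective_iff_map_eq_zero]
  intro c hc
  rw [hullι_apply, hullMk_eq_zero_iff] at hc
  obtain ⟨r, hr, hrc⟩ := hc
  have h1 : hullCast C r = hullCast C (Finsupp.single c 1) := by
    rw [hrc, hullCast_single]
    simp
  have h2 := hullCast_injective C h1
  have h3 : hullSum C r = 0 := hr
  rw [h2, hullSum_single, one_smul] at h3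
  exact h3

lemma hullι_comm (g : G) (c : C) : hullι C (C.ρ g c) = (hullI C).ρ g (hullι C c) := by
  rw [hullι_apply, hullι_apply, ← hullMk_comm, Finsupp.mapDomain_single]

/-- The hull is divisible. -/
lemma hullI_div (n : ℕ) (hn : n ≠ 0) (x : hullI C) : ∃ y : hullI C, (n : ℤ) • y = x := by
  obtain ⟨f, rfl⟩ := hullMk_surjective C x
  refine ⟨hullMk C ((n : ℚ)⁻¹ • f), ?_⟩
  rw [← map_zsmul]
  congr 1
  ext c
  simp only [Finsupp.smul_apply, smul_eq_mul, zsmul_eq_mul, Int.cast_natCast]
  have : (n : ℚ) ≠ 0 := Nat.cast_ne_zero.2 hn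
  field_simp

/-- The hull of a smooth module is smooth. -/
theorem hullI_smooth (𝓤 : Levels G) (hC : IsSmooth 𝓤 C) : IsSmooth 𝓤 (hullI C) := by
  classical
  intro x
  obtain ⟨f, rfl⟩ := hullMk_surjective C x
  choose! W hW hWfix using hC
  obtain ⟨W₀, hW₀, hW₀le⟩ := 𝓤.exists_le_finset f.support W (fun c _ => hW c)
  refine ⟨W₀, hW₀, fun g hg => ?_⟩
  rw [← hullMk_comm]
  congr 1
  have h1 : Finsupp.mapDomain (C.ρ g) f = Finsupp.mapDomain id f :=
    Finsupp.mapDomain_congr fun c hc => hWfix c g (hW₀le c hc hg)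
  rw [h1, Finsupp.mapDomain_id]

/-- The image of `C` in its hull. -/
def hullRange : AddSubgroup (hullI C) := (hullι C).range

lemma hullRange_stable (g : G) (x : hullI C) (hx : x ∈ hullRange C) :
    (hullI C).ρ g x ∈ hullRange C := by
  obtain ⟨c, rfl⟩ := hx
  exact ⟨C.ρ g c, hullι_comm C g c⟩

/-- The quotient `hullI C / C`. -/
abbrev hullQ : Rep.{0} ℤ G := quotRep (hullI C) (hullRange C) (hullRange_stable C)

/-- The projection `hullI C → hullQ C`. -/
def hullπ : hullI C →+ hullQ C := quotMk (hullI C) (hullRange C) (hullRange_stable C)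

lemma hullπ_surjective : Function.Surjective (hullπ C) :=
  quotMk_surjective (hullI C) (hullRange C) (hullRange_stable C)

lemma hullπ_eq_zero_iff (x : hullI C) : hullπ C x = 0 ↔ ∃ c : C, hullι C c = x :=
  quotMk_eq_zero_iff (hullI C) (hullRange C) (hullRange_stable C) x

lemma hullπ_comm (g : G) (x : hullI C) : hullπ C ((hullI C).ρ g x) = (hullQ C).ρ g (hullπ C x) :=
  rfl

end Hull

/-! ### The complex and the universal-coefficient datum -/

section Complex

variable (p : ℕ) (C : Rep.{0} ℤ G)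

/-- The complex `[hullI C [p] → hullQ C [p]]`, a model of `𝔽_p ⊗ᴸ C [-1]`. -/
def hullK : Cx (ZMod p) G where
  K0 := torsRep p (hullI C)
  K1 := torsRep p (hullQ C)
  d := torsMap p (hullπ C)
  comm g x := torsMap_comm p (hullπ C) (hullπ_comm C) g x

/-- The universal-coefficient datum of the hull. -/
def hullData [Fact p.Prime] : UCData p (hullK p C) C (hullI C) (hullQ C) where
  ι := hullι C
  π := hullπ C
  i0 := torsIncl p (hullI C)
  i1 := torsIncl p (hullQ C)
  ι_inj := hullι_injective C
  π_surj := hullπ_surjective C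
  exact := hullπ_eq_zero_iff C
  ι_comm := hullι_comm C
  π_comm := hullπ_comm C
  i0_comm := torsIncl_comm p (hullI C)
  i1_comm := torsIncl_comm p (hullQ C)
  i0_inj := torsIncl_injective p (hullI C)
  i1_inj := torsIncl_injective p (hullQ C)
  i0_range := torsIncl_range p (hullI C)
  i1_range := torsIncl_range p (hullQ C)
  comm _ := rfl
  div := hullI_div C p (Fact.out : p.Prime).ne_zero

/-- The complex of the hull of a smooth module is smooth. -/
theorem hullK_smooth [Fact p.Prime] (𝓤 : Levels G) (hC : IsSmooth 𝓤 C) :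
    (hullK p C).Smooth 𝓤 :=
  (hullData p C).smoothK (hullI_smooth C 𝓤 hC)

variable {p C}

/-- The morphism `M[0] → hullK p C` attached to an equivariant additive map `φ : M → C`, for an
`𝔽_p[G]`-module `M`. -/
def hullEps (M : Rep.{0} (ZMod p) G) (φ : M →+ C)
    (hφ : ∀ (g : G) (m : M), φ (M.ρ g m) = C.ρ g (φ m)) : CxHom (Cx.deg0 M) (hullK p C) where
  f0 := torsLift p M (hullI C) ((hullι C).comp φ)
  f1 := 0
  comm0 g m := by
    apply torsIncl_injective
    exact (congrArg (hullι C) (hφ g m)).trans (hullι_comm C g (φ m))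
  comm1 _ _ := by simp
  commd m := by
    apply torsIncl_injective
    show (0 : hullQ C) = hullπ C (hullι C (φ m))
    exact ((hullπ_eq_zero_iff C _).2 ⟨φ m, rfl⟩).symm

lemma hullEps_f0 (M : Rep.{0} (ZMod p) G) (φ : M →+ C)
    (hφ : ∀ (g : G) (m : M), φ (M.ρ g m) = C.ρ g (φ m)) (m : M) :
    torsIncl p (hullI C) ((hullEps M φ hφ).f0 m) = hullι C (φ m) := rfl

lemma hullEps_f0_injective (M : Rep.{0} (ZMod p) G) (φ : M →+ C)
    (hφ : ∀ (g : G) (m : M), φ (M.ρ g m) = C.ρ g (φ m)) (hinj : Function.Injective φ) :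
    Function.Injective (hullEps M φ hφ).f0 := by
  intro m m' h
  have h' : hullι C (φ m) = hullι C (φ m') := congrArg (torsIncl p (hullI C)) h
  exact hinj (hullι_injective C h')

/-- **Existence of the universal-coefficient datum**: every smooth `ℤ[G]`-module `C` has a
smooth 2-term complex `K` of `𝔽_p[G]`-modules with `HH^r(K) = Ext^r(𝔽_p, C)`. -/
theorem exists_ucData (p : ℕ) [Fact p.Prime] (𝓤 : Levels G) (C : Rep.{0} ℤ G)
    (hC : IsSmooth 𝓤 C) :
    ∃ (K : Cx (ZMod p) G) (I Q : Rep.{0} ℤ G) (_ : UCData p K C I Q),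
      K.Smooth 𝓤 ∧ IsSmooth 𝓤 I :=
  ⟨hullK p C, hullI C, hullQ C, hullData p C, hullK_smooth p C 𝓤 hC, hullI_smooth C 𝓤 hC⟩

end Complex

end Fermat.Agent.F4
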